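import Mathlib
import Fermat.Agent.H68.FFD.Interfaces

/-!
# P-FF, row 558 (FF-D-SW): finite Stone–Weierstrass with determinant
-/

set_option autoImplicit false

namespace Fermat.Agent.H47.FF

/-- the `K`-span of a point-separating subring of functions on a finite set is everything. -/
theorem span_subring_eq_top {K : Type} [Field K] {Z : Type} [Fintype Z] [DecidableEq Z]
    (B : Subring (Z → K)) (hB : ∀ z z' : Z, z ≠ z' → ∃ f ∈ B, f z ≠ f z') :
    Submodule.span K (B : Set (Z → K)) = ⊤ := by
  have hcl : Submonoid.closure (B : Set (Z → K)) = B.toSubmonoid :=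
    Submonoid.closure_eq B.toSubmonoid
  have hadj : Subalgebra.toSubmodule (Algebra.adjoin K (B : Set (Z → K))) =
      Submodule.span K (B : Set (Z → K)) := by
    rw [Algebra.adjoin_eq_span, hcl]
    rfl
  rw [← hadj]
  have hW : Algebra.adjoin K (B : Set (Z → K)) = ⊤ := by
    rw [eq_top_iff]
    -- indicators
    have hδ : ∀ z : Z, (Pi.single z (1 : K) : Z → K) ∈ Algebra.adjoin K (B : Set (Z → K)) := by
      intro z
      choose! f hfB hf using hB z
      have hprod : (∏ z' ∈ Finset.univ.erase z,
          ((f z' - algebraMap K (Z → K) (f z' z')) *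
            algebraMap K (Z → K) ((f z' z - f z' z')⁻¹))) = Pi.single z (1 : K) := by
        funext w
        rw [Finset.prod_apply]
        by_cases hw : w = z
        · subst hw
          rw [Pi.single_eq_same]
          refine Finset.prod_eq_one fun z' hz' => ?_
          have hne : w ≠ z' := fun h => (Finset.mem_erase.1 hz').1 h.symm
          have := hf z' hne
          simp only [Pi.mul_apply, Pi.sub_apply, Pi.algebraMap_apply, Algebra.algebraMap_self,
            RingHom.id_apply]
          exact mul_inv_cancel₀ (sub_ne_zero.2 this)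
        · rw [Pi.single_eq_of_ne hw]
          refine Finset.prod_eq_zero (Finset.mem_erase.2 ⟨hw, Finset.mem_univ w⟩) ?_
          simp
      rw [← hprod]
      refine Subalgebra.prod_mem _ fun z' hz' => ?_
      have hne : z ≠ z' := fun h => (Finset.mem_erase.1 hz').1 h.symm
      refine Subalgebra.mul_mem _ (Subalgebra.sub_mem _ ?_ (Subalgebra.algebraMap_mem _ _))
        (Subalgebra.algebraMap_mem _ _)
      exact Algebra.subset_adjoin (hfB z' hne)
    intro h _
    have hsum : h = ∑ z : Z, h z • (Pi.single z (1 : K) : Z → K) := by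
      funext w
      simp [Finset.sum_apply, Pi.single_apply]
    rw [hsum]
    exact Subalgebra.sum_mem _ fun z _ => Subalgebra.smul_mem _ (hδ z) _
  rw [hW]
  rfl

/-- **FF-D-SW.** -/
theorem sepDet : Fermat.Agent.H68.FFD.SepDetStatement := by
  intro K _ Z _ _ B hB
  have hspan := span_subring_eq_top B hB
  obtain ⟨f, hfB, -, hfli⟩ := Submodule.exists_fun_fin_finrank_span_eq K (B : Set (Z → K))
  have hcard : Module.finrank K (Submodule.span K (B : Set (Z → K))) = Fintype.card Z := by
    rw [hspan, finrank_top, Module.finrank_fintype_fun_eq_card]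
  let ε : Z ≃ Fin (Module.finrank K (Submodule.span K (B : Set (Z → K)))) :=
    (Fintype.equivFinOfCardEq hcard.symm)
  refine ⟨fun k => f (ε k), fun k => hfB _, ?_⟩
  have hli : LinearIndependent K (fun k : Z => f (ε k)) := hfli.comp ε ε.injective
  have hcol : LinearIndependent K (Matrix.of fun z k => f (ε k) z).col := by
    convert hli using 1
    funext k z
    rfl
  have hunit := Matrix.linearIndependent_cols_iff_isUnit.1 hcol
  exact ((Matrix.isUnit_iff_isUnit_det _).1 hunit).ne_zero

end Fermat.Agent.H47.FF
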