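import Fermat.Agent.H23.PlaceBasic

/-!
# P-FF row 772 (FF-G7-REDKERNEL), core (helper47)

A statement about ONE function field: a function with poles at most `(∑ nn a) Qinf` which vanishes
at all `Qs i` and at all the extra zeros of an auxiliary family `f a` (`a ∈ Fin g ⊕ Fin g`) is a
constant multiple of `∏ f a`, provided `L(∑ Qs i) = K`.

Only the prelude and `Fermat.Agent.H23.PlaceBasic` are used; the hypotheses are spelled out (the
structure `IsAuxFamily` lives in `Fermat.Agent.H94.FF.G7Interfaces`, see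
`Fermat.Agent.H47.FF.RedKernel` for the packaged statement).
-/

set_option autoImplicit false

noncomputable section

open AlgebraicCurve

namespace Fermat.Agent.H47.FF

variable {K F : Type*} [Field K] [Field F] [Algebra K F]

/-- `ord` of a finite product of nonzero functions. -/
theorem ord_finset_prod (v : Place K F) {ι : Type*} (s : Finset ι) (f : ι → F)
    (hf : ∀ a ∈ s, f a ≠ 0) : v.ord (∏ a ∈ s, f a) = ∑ a ∈ s, v.ord (f a) := by
  classical
  induction s using Finset.induction_on with
  | empty => simp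
  | insert a s ha ih =>
    have h1 : f a ≠ 0 := hf a (Finset.mem_insert_self a s)
    have h2 : ∀ b ∈ s, f b ≠ 0 := fun b hb => hf b (Finset.mem_insert_of_mem hb)
    have h3 : ∏ b ∈ s, f b ≠ 0 := Finset.prod_ne_zero_iff.mpr h2
    rw [Finset.prod_insert ha, Finset.sum_insert ha, v.ord_mul h1 h3, ih h2]

/-- `ord` of a quotient of nonzero functions. -/
theorem ord_div_of_ne_zero (v : Place K F) {x y : F} (hx : x ≠ 0) (hy : y ≠ 0) :
    v.ord (x / y) = v.ord x - v.ord y := by
  rw [div_eq_mul_inv, v.ord_mul hx (inv_ne_zero hy), v.ord_inv, sub_eq_add_neg]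

/-- The divisor `∑ i, Qs i` evaluated at a place, for an injective family. -/
theorem sum_single_apply_of_injective {g : ℕ} (Qs : Fin g → Place K F)
    (hQs : Function.Injective Qs) (i : Fin g) :
    (∑ j, Finsupp.single (Qs j) (1 : ℤ)) (Qs i) = 1 := by
  classical
  rw [Finsupp.finsetSum_apply]
  rw [Finset.sum_eq_single i]
  · simp
  · intro j _ hji
    rw [Finsupp.single_apply, if_neg (fun h => hji (hQs h))]
  · intro hi
    exact absurd (Finset.mem_univ i) hi

/-- The divisor `∑ i, Qs i` evaluated at a place outside the family. -/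
theorem sum_single_apply_of_notMem {g : ℕ} (Qs : Fin g → Place K F) (v : Place K F)
    (hv : ∀ i, Qs i ≠ v) : (∑ j, Finsupp.single (Qs j) (1 : ℤ)) v = 0 := by
  classical
  rw [Finsupp.finsetSum_apply]
  refine Finset.sum_eq_zero fun j _ => ?_
  rw [Finsupp.single_apply, if_neg (hv j)]

/-- **FF-G7-REDKERNEL, core.**  With the data of an auxiliary family spelled out. -/
theorem redKernel_core {g : ℕ} (Qs : Fin g → Place K F) (hQs : Function.Injective Qs)
    (hconst : ∀ f : F, f ∈ riemannRochSpace (∑ i, Finsupp.single (Qs i) (1 : ℤ)) →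
      ∃ c : K, f = algebraMap K F c)
    (Qinf : Place K F) (nn : Fin g ⊕ Fin g → ℕ) (f : Fin g ⊕ Fin g → F)
    (Zx : Fin g ⊕ Fin g → Finset (Place K F))
    (qinf_ne : ∀ i, Qs i ≠ Qinf)
    (pole : ∀ a, Qinf.ord (f a) = -(nn a : ℤ))
    (zero_main : ∀ a, (Qs (Sum.elim id id a)).ord (f a) = 1)
    (zero_extra : ∀ a, ∀ v ∈ Zx a, v.ord (f a) = 1)
    (zero_else : ∀ a v, v ≠ Qinf → v ≠ Qs (Sum.elim id id a) → v ∉ Zx a → v.ord (f a) = 0)
    (qinf_notMem : ∀ a, Qinf ∉ Zx a)
    (qs_notMem : ∀ a i, Qs i ∉ Zx a)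
    (disj : ∀ a b, a ≠ b → Disjoint (Zx a) (Zx b))
    (h : F) (hh : h ∈ riemannRochSpace (Finsupp.single Qinf (((∑ a, nn a : ℕ)) : ℤ)))
    (hQ : ∀ i, h = 0 ∨ 1 ≤ (Qs i).ord h) (hZ : ∀ a, ∀ v ∈ Zx a, h = 0 ∨ 1 ≤ v.ord h) :
    ∃ c : K, h = algebraMap K F c * ∏ a, f a := by
  classical
  rcases eq_or_ne h 0 with rfl | hh0
  · exact ⟨0, by simp⟩
  -- the sections are nonzero
  have hf0 : ∀ a, f a ≠ 0 := by
    intro a ha
    have h1 := zero_main a
    rw [ha, Place.ord_zero] at h1
    exact zero_ne_one h1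
  have hP0 : ∏ a, f a ≠ 0 := Finset.prod_ne_zero_iff.mpr fun a _ => hf0 a
  have hordP : ∀ v : Place K F, v.ord (∏ a, f a) = ∑ a, v.ord (f a) := fun v =>
    ord_finset_prod v Finset.univ f fun a _ => hf0 a
  have hw0 : h / ∏ a, f a ≠ 0 := div_ne_zero hh0 hP0
  have hordw : ∀ v : Place K F, v.ord (h / ∏ a, f a) = v.ord h - ∑ a, v.ord (f a) := fun v => by
    rw [ord_div_of_ne_zero v hh0 hP0, hordP v]
  rw [mem_riemannRochSpace_iff] at hh
  -- the quotient lies in `L(∑ Qs i)`
  have hmem : h / ∏ a, f a ∈ riemannRochSpace (∑ i, Finsupp.single (Qs i) (1 : ℤ)) := by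
    rw [mem_riemannRochSpace_iff]
    intro v
    right
    rw [hordw v]
    by_cases hv1 : v = Qinf
    · -- the pole
      subst hv1
      rw [sum_single_apply_of_notMem Qs v qinf_ne]
      have h1 : -((∑ a, nn a : ℕ) : ℤ) ≤ v.ord h := by
        have := (hh v).resolve_left hh0
        rwa [Finsupp.single_eq_same] at this
      have h2 : ∑ a, v.ord (f a) = -((∑ a, nn a : ℕ) : ℤ) := by
        rw [Finset.sum_congr rfl fun a _ => pole a, Finset.sum_neg_distrib]
        push_cast
        rfl
      rw [h2]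
      omega
    by_cases hv2 : ∃ i, Qs i = v
    · -- the main zeros
      obtain ⟨i, rfl⟩ := hv2
      rw [sum_single_apply_of_injective Qs hQs i]
      have h1 : 1 ≤ (Qs i).ord h := (hQ i).resolve_left hh0
      have hval1 : ∀ a : Fin g ⊕ Fin g, Sum.elim id id a = i → (Qs i).ord (f a) = 1 := by
        intro a hai
        have := zero_main a
        rwa [hai] at this
      have hval0 : ∀ a : Fin g ⊕ Fin g, Sum.elim id id a ≠ i → (Qs i).ord (f a) = 0 :=
        fun a hai => zero_else a (Qs i) hv1 (fun hq => hai (hQs hq).symm) (qs_notMem a i)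
      have hsl : ∑ j : Fin g, (Qs i).ord (f (Sum.inl j)) = 1 := by
        rw [Finset.sum_eq_single i, hval1 (Sum.inl i) rfl]
        · intro j _ hji
          exact hval0 (Sum.inl j) hji
        · intro hi
          exact absurd (Finset.mem_univ i) hi
      have hsr : ∑ j : Fin g, (Qs i).ord (f (Sum.inr j)) = 1 := by
        rw [Finset.sum_eq_single i, hval1 (Sum.inr i) rfl]
        · intro j _ hji
          exact hval0 (Sum.inr j) hji
        · intro hi
          exact absurd (Finset.mem_univ i) hi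
      have h2 : ∑ a, (Qs i).ord (f a) = 2 := by
        rw [Fintype.sum_sum_type, hsl, hsr]
        norm_num
      rw [h2]
      omega
    have hv2 : ∀ i, Qs i ≠ v := fun i hi => hv2 ⟨i, hi⟩
    rw [sum_single_apply_of_notMem Qs v hv2]
    have hne : ∀ a, v ≠ Qs (Sum.elim id id a) := fun a hq => hv2 _ hq.symm
    by_cases hv3 : ∃ a, v ∈ Zx a
    · -- the extra zeros
      obtain ⟨a, ha⟩ := hv3
      have h1 : 1 ≤ v.ord h := (hZ a v ha).resolve_left hh0
      have h2 : ∑ b, v.ord (f b) = 1 := by
        rw [Finset.sum_eq_single a, zero_extra a v ha]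
        · intro b _ hba
          refine zero_else b v hv1 (hne b) fun hb => ?_
          exact (Finset.disjoint_left.mp (disj a b (Ne.symm hba)) ha) hb
        · intro ha'
          exact absurd (Finset.mem_univ a) ha'
      rw [h2]
      omega
    · -- everything else
      have hv3 : ∀ a, v ∉ Zx a := fun a ha => hv3 ⟨a, ha⟩
      have h1 : 0 ≤ v.ord h := by
        have := (hh v).resolve_left hh0
        rwa [Finsupp.single_apply, if_neg (Ne.symm hv1), neg_zero] at this
      have h2 : ∑ b, v.ord (f b) = 0 :=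
        Finset.sum_eq_zero fun b _ => zero_else b v hv1 (hne b) (hv3 b)
      rw [h2]
      omega
  obtain ⟨c, hc⟩ := hconst _ hmem
  refine ⟨c, ?_⟩
  rw [← hc, div_mul_cancel₀ _ hP0]

end Fermat.Agent.H47.FF

end
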