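import Fermat.Agent.H94.FF.G7Interfaces
import Fermat.Agent.H47.FF.RedKernelCore

/-!
# P-FF row 772 (FF-G7-REDKERNEL) (helper47)

`redKernel : Fermat.Agent.H94.FF.RedKernelStatement` (unconditional): a function with poles at
most `(∑ nn a) Qinf` vanishing at all `Qs i` and at all extra zeros of an auxiliary family is a
constant multiple of `∏ f a` (because `L(∑ Qs i) = K`).  The proof is
`Fermat.Agent.H47.FF.redKernel_core` (prelude + `H23.PlaceBasic` only).
-/

set_option autoImplicit false

noncomputable section

open AlgebraicCurve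

namespace Fermat.Agent.H47.FF

open Fermat.Agent.H94.FF

/-- `HasVal P y 0` means `y = 0` or `y` vanishes at `P`. -/
theorem hasVal_zero_iff_vanish {K F : Type*} [Field K] [Field F] [Algebra K F] (P : Place K F)
    (y : F) : HasVal P y 0 ↔ y = 0 ∨ 1 ≤ P.ord y := by
  unfold HasVal
  rw [map_zero, sub_zero]

/-- **FF-G7-REDKERNEL** (row 772). -/
theorem redKernel : RedKernelStatement := by
  intro K F _ _ _ g _ Qs hQs hconst Qinf nn f Zx hAux h hh hQ hZ
  exact redKernel_core Qs hQs hconst Qinf nn f Zx hAux.qinf_ne hAux.pole hAux.zero_main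
    hAux.zero_extra hAux.zero_else hAux.qinf_notMem hAux.qs_notMem hAux.disj h hh
    (fun i => (hasVal_zero_iff_vanish _ _).mp (hQ i))
    (fun a v hv => (hasVal_zero_iff_vanish _ _).mp (hZ a v hv))

end Fermat.Agent.H47.FF

end
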